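import Mathlib

/-!
# S18 / squad Sq05, piece FF.1 (DISC) — helper666

A valuation subring `V` of a finite extension `F/E` whose restriction `V ∩ E` is a principal
ideal ring is a principal ideal ring.  Characteristic-free, no separability, Mathlib only.

Proof: for `x ≠ 0` in `F` the minimal polynomial gives two monomials `c_i x^i`, `c_j x^j`
of equal valuation, hence `v (x ^ d) = v e` with `e ∈ Eˣ`, `1 ≤ d ≤ [F:E]`; so
`v (x ^ n!) ∈ v (Eˣ)`.  This gives a map `V → V ∩ E` which carries strict divisibility to strict
divisibility; as `V ∩ E` is a PID, strict divisibility on `V` is well founded, and a Bézout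
domain with that property is a PID (`IsBezout.TFAE`).
-/

set_option autoImplicit false

namespace Fermat.Agent.S18.H666

section

variable {E F : Type*} [Field E] [Field F] [Algebra E F]

/-- If a finite sum of nonzero terms vanishes, two different terms have the same valuation. -/
theorem exists_ne_valuation_eq_of_sum_eq_zero {Γ : Type*} [LinearOrderedCommGroupWithZero Γ]
    (v : Valuation F Γ) {ι : Type*} (s : Finset ι) (f : ι → F) (hs : s.Nonempty)
    (hf : ∀ i ∈ s, f i ≠ 0) (hsum : ∑ i ∈ s, f i = 0) :
    ∃ i ∈ s, ∃ j ∈ s, i ≠ j ∧ v (f i) = v (f j) := by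
  classical
  by_contra hcon
  push Not at hcon
  obtain ⟨j, hj, hmax⟩ := s.exists_max_image (fun i => v (f i)) hs
  have hlt : ∀ i ∈ s \ {j}, v (f i) < v (f j) := by
    intro i hi
    rw [Finset.mem_sdiff, Finset.mem_singleton] at hi
    exact lt_of_le_of_ne (hmax i hi.1) (hcon i hi.1 j hj hi.2)
  have h1 := v.map_sum_eq_of_lt hj hlt
  rw [hsum, map_zero] at h1
  exact hf j hj ((map_eq_zero v).mp h1.symm)

/-- Key lemma: some power `x ^ d`, `1 ≤ d ≤ [F:E]`, has the valuation of an element of `Eˣ`. -/
theorem exists_pow_valuation_eq [FiniteDimensional E F] {Γ : Type*}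
    [LinearOrderedCommGroupWithZero Γ] (v : Valuation F Γ) {x : F} (hx : x ≠ 0) :
    ∃ d : ℕ, 0 < d ∧ d ≤ Module.finrank E F ∧
      ∃ e : E, e ≠ 0 ∧ v (x ^ d) = v (algebraMap E F e) := by
  classical
  have hint : IsIntegral E x := IsIntegral.of_finite E x
  set P := minpoly E x with hP
  have hP0 : P ≠ 0 := minpoly.ne_zero hint
  have hdeg : P.natDegree ≤ Module.finrank E F := minpoly.natDegree_le x
  have hsum : ∑ i ∈ P.support, algebraMap E F (P.coeff i) * x ^ i = 0 := by
    have h := minpoly.aeval E x
    rw [Polynomial.aeval_eq_sum_range, ← hP] at h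
    rw [← h]
    have hsub : P.support ⊆ Finset.range (P.natDegree + 1) := by
      intro i hi
      rw [Finset.mem_range]
      exact Nat.lt_succ_of_le (Polynomial.le_natDegree_of_mem_supp i hi)
    rw [← Finset.sum_subset hsub]
    · exact Finset.sum_congr rfl fun i _ => by rw [Algebra.smul_def]
    · intro i _ hi
      rw [Polynomial.notMem_support_iff.mp hi, zero_smul]
  have hne : P.support.Nonempty := Polynomial.support_nonempty.mpr hP0
  have hterm : ∀ i ∈ P.support, algebraMap E F (P.coeff i) * x ^ i ≠ 0 := by
    intro i hi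
    rw [Polynomial.mem_support_iff] at hi
    exact mul_ne_zero ((map_ne_zero _).mpr hi) (pow_ne_zero _ hx)
  obtain ⟨i, hi, j, hj, hij, hv⟩ :=
    exists_ne_valuation_eq_of_sum_eq_zero v P.support
      (fun i => algebraMap E F (P.coeff i) * x ^ i) hne hterm hsum
  -- symmetric situation: reduce to `i < j`
  have key : ∀ i j : ℕ, i ∈ P.support → j ∈ P.support → i < j →
      v (algebraMap E F (P.coeff i) * x ^ i) = v (algebraMap E F (P.coeff j) * x ^ j) →
      ∃ d : ℕ, 0 < d ∧ d ≤ Module.finrank E F ∧
        ∃ e : E, e ≠ 0 ∧ v (x ^ d) = v (algebraMap E F e) := by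
    intro i j hi hj hlt hv
    have hci : P.coeff i ≠ 0 := Polynomial.mem_support_iff.mp hi
    have hcj : P.coeff j ≠ 0 := Polynomial.mem_support_iff.mp hj
    refine ⟨j - i, Nat.sub_pos_of_lt hlt, ?_, P.coeff i / P.coeff j,
      div_ne_zero hci hcj, ?_⟩
    · exact (Nat.sub_le j i).trans ((Polynomial.le_natDegree_of_mem_supp j hj).trans hdeg)
    · have hxi : v (x ^ i) ≠ 0 := (Valuation.ne_zero_iff v).mpr (pow_ne_zero _ hx)
      have hvj : v (algebraMap E F (P.coeff j)) ≠ 0 :=
        (Valuation.ne_zero_iff v).mpr ((map_ne_zero _).mpr hcj)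
      have hj' : x ^ j = x ^ (j - i) * x ^ i := by
        rw [← pow_add, Nat.sub_add_cancel hlt.le]
      rw [hj', map_mul, map_mul, map_mul, ← mul_assoc] at hv
      have h2 := mul_right_cancel₀ hxi hv
      rw [map_div₀, map_div₀, h2, mul_comm, mul_div_assoc, div_self hvj, mul_one]
  rcases lt_or_gt_of_ne hij with h | h
  · exact key i j hi hj h hv
  · exact key j i hj hi h hv.symm

/-- For `x ≠ 0`, `v (x ^ [F:E]!)` is the valuation of an element of `Eˣ`. -/
theorem exists_pow_factorial_valuation_eq [FiniteDimensional E F] {Γ : Type*}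
    [LinearOrderedCommGroupWithZero Γ] (v : Valuation F Γ) {x : F} (hx : x ≠ 0) :
    ∃ e : E, e ≠ 0 ∧ v (x ^ (Module.finrank E F).factorial) = v (algebraMap E F e) := by
  obtain ⟨d, hd0, hdn, e, he, hv⟩ := exists_pow_valuation_eq (E := E) v hx
  obtain ⟨k, hk⟩ := Nat.dvd_factorial hd0 hdn
  refine ⟨e ^ k, pow_ne_zero _ he, ?_⟩
  rw [hk, pow_mul, map_pow, hv, map_pow, map_pow]

end

section Main

variable {E F : Type*} [Field E] [Field F] [Algebra E F] [FiniteDimensional E F]

/-- **FF.1 (DISC)**: a valuation subring of a finite extension `F/E` whose restriction to `E`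
is a principal ideal ring is a principal ideal ring. -/
theorem isPrincipalIdealRing_of_comap (V : ValuationSubring F)
    (h : IsPrincipalIdealRing (V.comap (algebraMap E F))) : IsPrincipalIdealRing V := by
  classical
  set W : ValuationSubring E := V.comap (algebraMap E F) with hW
  set N : ℕ := (Module.finrank E F).factorial with hN
  have hNpos : 0 < N := Nat.factorial_pos _
  -- the comparison map
  have hex : ∀ a : V, ∃ g : W, (a = 0 → g = 0) ∧
      (a ≠ 0 → g ≠ 0 ∧
        V.valuation ((a : F) ^ N) = V.valuation (algebraMap E F (g : E))) := by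
    intro a
    by_cases ha : a = 0
    · exact ⟨0, fun _ => rfl, fun h => absurd ha h⟩
    · have ha' : (a : F) ≠ 0 := fun h0 => ha (Subtype.ext h0)
      obtain ⟨e, he, hv⟩ := exists_pow_factorial_valuation_eq (E := E) V.valuation ha'
      have hmem : e ∈ W := by
        rw [hW, ValuationSubring.mem_comap, ← ValuationSubring.valuation_le_one_iff, ← hv,
          map_pow]
        exact pow_le_one₀ zero_le (V.valuation_le_one a)
      refine ⟨⟨e, hmem⟩, fun h => absurd h ha, fun _ => ⟨?_, hv⟩⟩
      intro h0
      exact he (congrArg Subtype.val h0)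
  choose g hg0 hg1 using hex
  have hWwf : WellFounded (DvdNotUnit : W → W → Prop) := wellFounded_dvdNotUnit
  have hsub : ∀ a b : V, DvdNotUnit a b → DvdNotUnit (g a) (g b) := by
    rintro a b ⟨ha, x, hxu, rfl⟩
    obtain ⟨hga, hva⟩ := hg1 a ha
    refine ⟨hga, ?_⟩
    by_cases hx0 : x = 0
    · refine ⟨0, not_isUnit_zero, ?_⟩
      rw [hg0 (a * x) (by rw [hx0, mul_zero]), mul_zero]
    · have hax : a * x ≠ 0 := mul_ne_zero ha hx0
      obtain ⟨hgb, hvb⟩ := hg1 (a * x) hax
      have hxlt : V.valuation (x : F) < 1 := by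
        rcases V.valuation_lt_one_or_eq_one x with h1 | h1
        · exact h1
        · exact absurd ((V.valuation_eq_one_iff x).mpr h1) hxu
      have hga' : V.valuation (algebraMap E F (g a : E)) ≠ 0 := by
        rw [Valuation.ne_zero_iff, map_ne_zero]
        exact fun h0 => hga (Subtype.ext h0)
      -- the quotient
      set c : E := (g (a * x) : E) / (g a : E) with hc
      have hvc : V.valuation (algebraMap E F c) < 1 := by
        rw [hc, map_div₀, map_div₀, ← hvb, ← hva, div_lt_one₀ (by
          rw [hva]; exact zero_lt_iff.mpr hga')]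
        have : ((a * x : V) : F) ^ N = (a : F) ^ N * (x : F) ^ N := by
          push_cast
          rw [mul_pow]
        rw [this, map_mul]
        have hxN : V.valuation ((x : F) ^ N) < 1 := by
          rw [map_pow]
          exact pow_lt_one₀ zero_le hxlt hNpos.ne'
        have hpos : 0 < V.valuation ((a : F) ^ N) := by
          rw [hva]; exact zero_lt_iff.mpr hga'
        calc V.valuation ((a : F) ^ N) * V.valuation ((x : F) ^ N)
            < V.valuation ((a : F) ^ N) * 1 := by
              exact mul_lt_mul_of_pos_left hxN hpos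
          _ = V.valuation ((a : F) ^ N) := mul_one _
      have hcmem : c ∈ W := by
        rw [hW, ValuationSubring.mem_comap, ← ValuationSubring.valuation_le_one_iff]
        exact hvc.le
      refine ⟨⟨c, hcmem⟩, ?_, ?_⟩
      · intro hu
        obtain ⟨w, hw⟩ := hu.exists_right_inv
        have hw' : c * (w : E) = 1 := congrArg Subtype.val hw
        have hw'' : V.valuation (algebraMap E F c) * V.valuation (algebraMap E F (w : E)) = 1 := by
          rw [← map_mul, ← map_mul, hw', map_one, map_one]
        have hwle : V.valuation (algebraMap E F (w : E)) ≤ 1 := by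
          rw [ValuationSubring.valuation_le_one_iff]
          exact ValuationSubring.mem_comap.mp w.2
        have : V.valuation (algebraMap E F c) * V.valuation (algebraMap E F (w : E)) < 1 :=
          mul_lt_one_of_nonneg_of_lt_one_left zero_le hvc hwle
        exact absurd hw'' this.ne
      · apply Subtype.ext
        have hga0 : (g a : E) ≠ 0 := fun h0 => hga (Subtype.ext h0)
        change (g (a * x) : E) = (g a : E) * c
        rw [hc, mul_div_cancel₀ _ hga0]
  have hVwf : WellFounded (DvdNotUnit : V → V → Prop) :=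
    Subrelation.wf (fun {a b} hab => hsub a b hab) (InvImage.wf g hWwf)
  have hwf : WfDvdMonoid V := ⟨hVwf⟩
  exact ((IsBezout.TFAE (R := V)).out 3 1).mp hwf

end Main

end Fermat.Agent.S18.H666
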