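import Mathlib
import Fermat.Prelude.Def_AlgebraicCurve_DivisorClassGroup
import Fermat.Agent.S18.H666.Disc

/-!
# S18 / squad Sq05, piece FF.2 (EXT) — helper666

If `F` is finite over `K(u)`, `u` transcendental over `K`, then `u` has a zero at some place of
`F/K`.  Characteristic-free.

Proof: Chevalley (`Ideal.image_subset_nonunits_valuationSubring`) gives a valuation subring `V`
of `F` containing `K[u]` in which `u` is a non-unit.  On `V ∩ K(u)` every nonzero element has
valuation `v(u) ^ k`, `k : ℕ`, so strict divisibility is well founded there and `V ∩ K(u)` is a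
PID; by DISC (`isPrincipalIdealRing_of_comap`) so is `V`.
-/

set_option autoImplicit false

open Polynomial IntermediateField

namespace Fermat.Agent.S18.H666

section Wf

variable {E F : Type*} [Field E] [Field F]

/-- A valuation subring `W = V ∩ E` on which all nonzero elements have valuation `t ^ k`
(`0 < t < 1`, `k : ℕ`) is a principal ideal ring. -/
theorem isPrincipalIdealRing_comap_of_pow (V : ValuationSubring F) (φ : E →+* F)
    (t : V.ValueGroup) (ht0 : 0 < t) (ht1 : t < 1)
    (hpow : ∀ x : V.comap φ, x ≠ 0 → ∃ k : ℕ, V.valuation (φ (x : E)) = t ^ k) :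
    IsPrincipalIdealRing (V.comap φ) := by
  classical
  have hex : ∀ a : V.comap φ, ∃ n : WithTop ℕ, (a = 0 → n = ⊤) ∧
      (a ≠ 0 → ∃ k : ℕ, n = (k : WithTop ℕ) ∧ V.valuation (φ (a : E)) = t ^ k) := by
    intro a
    by_cases ha : a = 0
    · exact ⟨⊤, fun _ => rfl, fun h => absurd ha h⟩
    · obtain ⟨k, hk⟩ := hpow a ha
      exact ⟨(k : WithTop ℕ), fun h => absurd h ha, fun _ => ⟨k, rfl, hk⟩⟩
  choose g hg0 hg1 using hex
  have hsub : ∀ a b : V.comap φ, DvdNotUnit a b → g a < g b := by
    rintro a b ⟨ha, x, hxu, rfl⟩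
    obtain ⟨k, hk, hva⟩ := hg1 a ha
    by_cases hx0 : x = 0
    · rw [hg0 (a * x) (by rw [hx0, mul_zero]), hk]
      exact WithTop.coe_lt_top k
    · have hax : a * x ≠ 0 := mul_ne_zero ha hx0
      obtain ⟨m, hm, hvb⟩ := hg1 (a * x) hax
      rw [hk, hm]
      have hxle : V.valuation (φ (x : E)) ≤ 1 := by
        rw [ValuationSubring.valuation_le_one_iff]
        exact ValuationSubring.mem_comap.mp x.2
      have hxlt : V.valuation (φ (x : E)) < 1 := by
        refine lt_of_le_of_ne hxle fun h1 => hxu ?_
        have hx0' : (x : E) ≠ 0 := fun h0 => hx0 (Subtype.ext h0)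
        have hinv : (x : E)⁻¹ ∈ V.comap φ := by
          rw [ValuationSubring.mem_comap, map_inv₀, ← ValuationSubring.valuation_le_one_iff,
            map_inv₀, h1, inv_one]
        refine isUnit_iff_exists_inv.mpr ⟨⟨(x : E)⁻¹, hinv⟩, Subtype.ext ?_⟩
        change (x : E) * (x : E)⁻¹ = 1
        exact mul_inv_cancel₀ hx0'
      have hlt : t ^ m < t ^ k := by
        rw [← hvb, ← hva]
        have : ((a * x : V.comap φ) : E) = (a : E) * (x : E) := rfl
        rw [this, map_mul, map_mul]
        have hpos : 0 < V.valuation (φ (a : E)) := by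
          rw [hva]; exact pow_pos ht0 k
        calc V.valuation (φ (a : E)) * V.valuation (φ (x : E))
            < V.valuation (φ (a : E)) * 1 := mul_lt_mul_of_pos_left hxlt hpos
          _ = V.valuation (φ (a : E)) := mul_one _
      have := (pow_lt_pow_iff_right_of_lt_one₀ ht0 ht1).mp hlt
      exact_mod_cast this
  have hWwf : WellFounded (DvdNotUnit : V.comap φ → V.comap φ → Prop) :=
    Subrelation.wf (fun {a b} hab => hsub a b hab) (InvImage.wf g wellFounded_lt)
  have hwf : WfDvdMonoid (V.comap φ) := ⟨hWwf⟩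
  exact ((IsBezout.TFAE (R := V.comap φ)).out 3 1).mp hwf

end Wf

section Ext

variable {K F : Type*} [Field K] [Field F] [Algebra K F]

/-- A transcendental element is not a unit of `K[u]`. -/
theorem span_ne_top_of_transcendental {u : F} (hu : Transcendental K u) :
    Ideal.span {(⟨u, Algebra.self_mem_adjoin_singleton K u⟩ :
      (Algebra.adjoin K {u}).toSubring)} ≠ ⊤ := by
  intro htop
  rw [Ideal.span_singleton_eq_top] at htop
  obtain ⟨w, hw⟩ := isUnit_iff_exists_inv.mp htop
  have key : ∀ y ∈ Algebra.adjoin K {u}, ∃ q : K[X], aeval u q = y := by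
    intro y hy
    rw [Algebra.adjoin_singleton_eq_range_aeval] at hy
    exact hy
  obtain ⟨q, hq⟩ := key (w : F) w.2
  have h1 : u * (w : F) = 1 := congrArg Subtype.val hw
  have h2 : aeval u (X * q - 1 : K[X]) = 0 := by
    rw [map_sub, map_mul, aeval_X, map_one, hq, h1, sub_self]
  have h3 : (X * q - 1 : K[X]) = 0 := by
    by_contra hne
    exact hu ⟨_, hne, h2⟩
  have h4 := congrArg (Polynomial.eval 0) h3
  simp at h4

/-- In a valuation subring containing `K` with `v u < 1`: `v (r(u)) = v(u) ^ k` for `r ≠ 0`. -/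
theorem exists_valuation_aeval_eq_pow (V : ValuationSubring F)
    (hK : ∀ a : K, algebraMap K F a ∈ V) {u : F} (hu1 : V.valuation u < 1) :
    ∀ r : K[X], r ≠ 0 → ∃ k : ℕ, V.valuation (aeval u r) = V.valuation u ^ k := by
  have hc : ∀ c : K, c ≠ 0 → V.valuation (algebraMap K F c) = 1 := by
    intro c hc0
    refine le_antisymm ((V.valuation_le_one_iff _).mpr (hK c)) ?_
    have h1 : V.valuation (algebraMap K F c⁻¹) ≤ 1 := (V.valuation_le_one_iff _).mpr (hK c⁻¹)
    rw [map_inv₀, map_inv₀] at h1
    have hne : V.valuation (algebraMap K F c) ≠ 0 :=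
      (Valuation.ne_zero_iff _).mpr ((_root_.map_ne_zero _).mpr hc0)
    exact (inv_le_one₀ (zero_lt_iff.mpr hne)).mp h1
  have huV : u ∈ V := (V.valuation_le_one_iff _).mp hu1.le
  have hV : ∀ r : K[X], V.valuation (aeval u r) ≤ 1 := by
    intro r
    rw [V.valuation_le_one_iff, Polynomial.aeval_eq_sum_range]
    refine sum_mem fun i _ => ?_
    rw [Algebra.smul_def]
    exact V.mul_mem _ _ (hK _) (pow_mem huV i)
  intro r
  induction' hn : r.natDegree using Nat.strong_induction_on with n ih generalizing r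
  intro hr
  by_cases h0 : r.coeff 0 = 0
  · -- `r = divX r * X`
    have hrX : r = r.divX * X := by
      conv_lhs => rw [← Polynomial.divX_mul_X_add r, h0, map_zero, add_zero]
    have hdiv0 : r.divX ≠ 0 := by
      intro h
      rw [h, zero_mul] at hrX
      exact hr hrX
    have hdeg : r.divX.natDegree < n := by
      rw [← hn, Polynomial.natDegree_divX_eq_natDegree_tsub_one]
      have : r.natDegree ≠ 0 := by
        intro hd
        have hC := Polynomial.eq_C_of_natDegree_eq_zero hd
        rw [h0, map_zero] at hC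
        exact hr hC
      omega
    obtain ⟨k, hk⟩ := ih _ hdeg r.divX rfl hdiv0
    refine ⟨k + 1, ?_⟩
    rw [hrX, map_mul, aeval_X, map_mul, hk, pow_succ]
  · refine ⟨0, ?_⟩
    rw [pow_zero]
    have hsplit : aeval u r = aeval u r.divX * u + algebraMap K F (r.coeff 0) := by
      conv_lhs => rw [← Polynomial.divX_mul_X_add r]
      rw [map_add, map_mul, aeval_X, aeval_C]
    have hlt : V.valuation (aeval u r.divX * u) < V.valuation (algebraMap K F (r.coeff 0)) := by
      rw [hc _ h0, map_mul]
      calc V.valuation (aeval u r.divX) * V.valuation u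
          ≤ 1 * V.valuation u := mul_le_mul_left (hV _) _
        _ = V.valuation u := one_mul _
        _ < 1 := hu1
    rw [hsplit, Valuation.map_add_eq_of_lt_right _ hlt, hc _ h0]

/-- **FF.2 (EXT)**: a transcendental `u` with `F / K(u)` finite has a zero at some place. -/
theorem exists_place_ord_pos (u : F) (hu : Transcendental K u)
    (hfin : FiniteDimensional K⟮u⟯ F) : ∃ v : AlgebraicCurve.Place K F, 0 < v.ord u := by
  classical
  -- Chevalley
  obtain ⟨V, hle, hnon⟩ := Ideal.image_subset_nonunits_valuationSubring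
    (Ideal.span {(⟨u, Algebra.self_mem_adjoin_singleton K u⟩ :
      (Algebra.adjoin K {u}).toSubring)}) (span_ne_top_of_transcendental hu)
  have hK : ∀ a : K, algebraMap K F a ∈ V := fun a =>
    hle ((Algebra.adjoin K {u}).algebraMap_mem a)
  have hu1 : V.valuation u < 1 := by
    rw [← ValuationSubring.mem_nonunits_iff]
    exact hnon ⟨⟨u, Algebra.self_mem_adjoin_singleton K u⟩,
      Ideal.subset_span (Set.mem_singleton _), rfl⟩
  have hu0 : u ≠ 0 := by
    rintro rfl
    exact hu ⟨X, X_ne_zero, by simp⟩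
  have ht0 : 0 < V.valuation u := zero_lt_iff.mpr ((Valuation.ne_zero_iff _).mpr hu0)
  -- `V ∩ K(u)` is a PID
  have hW : IsPrincipalIdealRing (V.comap (algebraMap K⟮u⟯ F)) := by
    refine isPrincipalIdealRing_comap_of_pow V (algebraMap K⟮u⟯ F) (V.valuation u) ht0 hu1 ?_
    intro x hx
    have hxE : ((x : K⟮u⟯) : F) ∈ K⟮u⟯ := (x : K⟮u⟯).2
    obtain ⟨r, s, hrs⟩ := (IntermediateField.mem_adjoin_simple_iff K _).mp hxE
    have hx0 : ((x : K⟮u⟯) : F) ≠ 0 := by
      intro h0
      apply hx
      apply Subtype.ext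
      apply Subtype.ext
      exact h0
    have hr0 : aeval u r ≠ 0 := by
      intro h0
      rw [hrs, h0, zero_div] at hx0
      exact hx0 rfl
    have hs0 : aeval u s ≠ 0 := by
      intro h0
      rw [hrs, h0, div_zero] at hx0
      exact hx0 rfl
    have hr : r ≠ 0 := by
      rintro rfl
      exact hr0 (map_zero _)
    have hs : s ≠ 0 := by
      rintro rfl
      exact hs0 (map_zero _)
    obtain ⟨a, ha⟩ := exists_valuation_aeval_eq_pow V hK hu1 r hr
    obtain ⟨b, hb⟩ := exists_valuation_aeval_eq_pow V hK hu1 s hs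
    have hval : V.valuation ((x : K⟮u⟯) : F) = V.valuation u ^ a / V.valuation u ^ b := by
      rw [hrs, map_div₀, ha, hb]
    have hxle : V.valuation ((x : K⟮u⟯) : F) ≤ 1 := by
      rw [ValuationSubring.valuation_le_one_iff]
      exact ValuationSubring.mem_comap.mp x.2
    have hab : b ≤ a := by
      rw [hval, div_le_one₀ (pow_pos ht0 b)] at hxle
      exact (pow_le_pow_iff_right_of_lt_one₀ ht0 hu1).mp hxle
    refine ⟨a - b, ?_⟩
    change V.valuation ((x : K⟮u⟯) : F) = _
    rw [hval, div_eq_iff (pow_ne_zero _ ht0.ne'), ← pow_add, Nat.sub_add_cancel hab]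
  have hV : IsPrincipalIdealRing V := by
    have := hfin
    exact isPrincipalIdealRing_of_comap (E := K⟮u⟯) V hW
  have hne : V ≠ ⊤ := by
    intro htop
    have h1 : u⁻¹ ∈ V := by rw [htop]; exact ValuationSubring.mem_top _
    have h2 : V.valuation u⁻¹ ≤ 1 := (V.valuation_le_one_iff _).mpr h1
    rw [map_inv₀] at h2
    have h3 := (inv_le_one₀ ht0).mp h2
    exact absurd hu1 (not_lt.mpr h3)
  refine ⟨⟨V, hK, hne, hV⟩, ?_⟩
  set v : AlgebraicCurve.Place K F := ⟨V, hK, hne, hV⟩ with hv
  have huV : u ∈ v.toValuationSubring := (V.valuation_le_one_iff _).mp hu1.le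
  have hmem : (⟨u, huV⟩ : v.toValuationSubring) ∈
      IsLocalRing.maximalIdeal v.toValuationSubring := by
    rw [ValuationSubring.valuation_lt_one_iff]
    exact hu1
  have hadic : v.adicValuation u < 1 := by
    have h := v.adicValuation_coe ⟨u, huV⟩
    change v.adicValuation u = _ at h
    rw [h, IsDedekindDomain.HeightOneSpectrum.intValuation_lt_one_iff_mem]
    exact hmem
  have hlog : WithZero.log (v.adicValuation u) < 0 := by
    rw [← WithZero.log_one, WithZero.log_lt_log (v.adicValuation_ne_zero hu0) one_ne_zero]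
    exact hadic
  change 0 < -(WithZero.log (v.adicValuation u))
  omega

end Ext

end Fermat.Agent.S18.H666
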